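import Fermat.Agent.H23.MWE.Interfaces
import Fermat.Agent.H58.RR.CharZero
import Fermat.Agent.H58.RR.NonSpecial
import Fermat.Agent.H68.PoleDict

/-!
# P-MW block E, row MW-E-HOL-RR (helper5): Riemann-Roch for ideals of the holomorphy ring

For a nonzero ideal `J` of `IntRing K t` with divisor `D` (`HolIdealStatement`), the space
`holW K t P m ⊓ J` is the Riemann-Roch space `L(m P - D)` (the elements of `L(m P - D)` are
regular away from `P`, hence integral over `K[t]`), and Riemann's theorem (helper58) gives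
`dim L(m P - D) = m - deg D + 1 - g` as soon as `deg (m P - D)` is large.
-/

set_option autoImplicit false
set_option linter.style.haveILetI false
set_option linter.unusedSectionVars false

noncomputable section

namespace Fermat.Agent.H5.MWE

open AlgebraicCurve IntermediateField Fermat.Agent.H23.MWE Fermat.Agent.H58

variable {K F : Type} [Field K] [IsAlgClosed K] [CharZero K] [Field F] [Algebra K F]

/-- The inclusion `IntRing K t → F` as a `K`-linear map. -/
def intRingVal (t : F) : IntRing K t →ₗ[K] F where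
  toFun h := (h : F)
  map_add' _ _ := rfl
  map_smul' _ _ := rfl

theorem intRingVal_injective (t : F) : Function.Injective (intRingVal (K := K) t) :=
  fun _ _ h => Subtype.ext h

/-- Elements regular away from the pole of `t` are integral over `K[t]`. -/
theorem isIntegral_of_regular {t : F} {P : Place K F} (hSP : SinglePole K t P) (f : F)
    (hf : ∀ Q : Place K F, Q ≠ P → 0 ≤ Q.ord f) :
    IsIntegral (Algebra.adjoin K ({t} : Set F)) f := by
  haveI := hSP.fin
  haveI : CharZero K⟮t⟯ := charZero_of_injective_algebraMap (algebraMap K K⟮t⟯).injective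
  have hsep : Algebra.IsSeparable K⟮t⟯ F := inferInstance
  rw [Fermat.Agent.H68.pd_isIntegral_iff t hSP.fin hsep f]
  intro v hv
  apply hf v
  rintro rfl
  exact absurd hSP.pole (not_lt.mpr hv)

/-- `holW K t P m ⊓ J = L(m P - D)` when `D` is the divisor of `J`. -/
theorem map_holW_inf_eq {t : F} {P : Place K F} (hSP : SinglePole K t P)
    (J : Ideal (IntRing K t)) (D : Divisor K F) (hDP : D P = 0) (hD0 : 0 ≤ D)
    (hmem : ∀ h : IntRing K t, h ∈ J ↔ h = 0 ∨ ∀ Q : Place K F, Q ≠ P → D Q ≤ Q.ord (h : F))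
    (m : ℕ) :
    (holW K t P m ⊓ J.restrictScalars K).map (intRingVal t) =
      riemannRochSpace (Finsupp.single P (m : ℤ) - D) := by
  ext f
  rw [Submodule.mem_map, mem_riemannRochSpace_iff]
  constructor
  · rintro ⟨h, hh, rfl⟩
    obtain ⟨h1, h2⟩ := Submodule.mem_inf.mp hh
    have h2' : h ∈ J := h2
    intro v
    by_cases h0 : (h : F) = 0
    · exact Or.inl h0
    right
    show -(Finsupp.single P (m : ℤ) - D) v ≤ v.ord (h : F)
    rw [Finsupp.sub_apply]
    by_cases hv : v = P
    · subst hv
      rw [Finsupp.single_eq_same, hDP, sub_zero]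
      exact h1
    · rw [Finsupp.single_eq_of_ne hv, zero_sub, neg_neg]
      rcases (hmem h).mp h2' with h3 | h3
      · exact absurd (congrArg Subtype.val h3) h0
      · exact h3 v hv
  · intro hf
    by_cases hf0 : f = 0
    · exact ⟨0, Submodule.zero_mem _, by rw [hf0]; rfl⟩
    have hfv : ∀ v : Place K F, -(Finsupp.single P (m : ℤ) - D) v ≤ v.ord f :=
      fun v => (hf v).resolve_left hf0
    have hQ : ∀ Q : Place K F, Q ≠ P → D Q ≤ Q.ord f := by
      intro Q hQ
      have := hfv Q
      rwa [Finsupp.sub_apply, Finsupp.single_eq_of_ne hQ, zero_sub, neg_neg] at this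
    have hP : -(m : ℤ) ≤ P.ord f := by
      have := hfv P
      rwa [Finsupp.sub_apply, Finsupp.single_eq_same, hDP, sub_zero] at this
    have hint : IsIntegral (Algebra.adjoin K ({t} : Set F)) f :=
      isIntegral_of_regular hSP f fun Q hQ' => le_trans (Finsupp.le_def.mp hD0 Q) (hQ Q hQ')
    refine ⟨⟨f, hint⟩, Submodule.mem_inf.mpr ⟨hP, ?_⟩, rfl⟩
    show (⟨f, hint⟩ : IntRing K t) ∈ J
    exact (hmem _).mpr (Or.inr hQ)

/-- **MW-E-HOL-RR**. -/
theorem holRR (hI : HolIdealStatement) : HolRRStatement := by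
  intro K F _ _ _ _ _ t P hSP
  have hRR : RRHyp K F := rrHyp_charZero K F t hSP.trans hSP.fin
  obtain ⟨c, hc⟩ := hRR.exists_degree_bound
  refine ⟨c.toNat, fun J hJ => ?_⟩
  obtain ⟨D, hDP, hD0, hmem, -, hfin, hdeg⟩ := hI K F t P hSP J hJ
  refine ⟨hfin, fun m hm => ?_⟩
  set E : Divisor K F := Finsupp.single P (m : ℤ) - D with hE
  have hdegE : Divisor.degree E = (m : ℤ) - Module.finrank K (IntRing K t ⧸ J) := by
    rw [hE, map_sub, Divisor.degree_single, hRR.deg_one P, hdeg]
    simp
  have hcE : c ≤ Divisor.degree E := by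
    rw [hdegE]
    have h1 : c ≤ (c.toNat : ℤ) := Int.self_le_toNat c
    have h2 : ((Module.finrank K (IntRing K t ⧸ J) + c.toNat : ℕ) : ℤ) ≤ (m : ℤ) := by
      exact_mod_cast hm
    push_cast at h2
    omega
  have hH1 := hc E hcE
  have hR := (hRR.riemann E).2
  rw [hH1, hdegE] at hR
  have heq : Module.finrank K ↥(holW K t P m ⊓ J.restrictScalars K) =
      Module.finrank K ↥(riemannRochSpace E) := by
    rw [← map_holW_inf_eq hSP J D hDP hD0 hmem m]
    exact (Submodule.equivMapOfInjective (intRingVal t) (intRingVal_injective t) _).finrank_eq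
  rw [heq]
  have h2 : ((Module.finrank K (IntRing K t ⧸ J) + c.toNat : ℕ) : ℤ) ≤ (m : ℤ) := by
    exact_mod_cast hm
  push_cast at h2 hR
  omega

end Fermat.Agent.H5.MWE

end
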